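import Fermat.Agent.S36.Eng.Spec

/-!
# S36 / MOD3, leaf NORMAL (helper544): the abstract transfer of normality

`φ : F' → F` a field homomorphism, `V` a valuation ring of `F` over `V'` (`V.comap φ = V'`),
`B ⊆ V`, `B'` subalgebras with `φ B' ⊆ B`.  If

* the residue degree is one (`hres`: every element of `V` is congruent modulo `𝔪_V` to `φ g`,
  `g ∈ V'`),
* `B` is integral over `φ B'` MODULO `𝔪_V` (`hint`), and
* the component of `B'` cut out by `V'` is normal (`Eng.NormalAlong B' V'`),

then the component of `B` cut out by `V` is normal (`Eng.NormalAlong B V`).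

Mathlib only (plus the definition `Eng.NormalAlong`).
-/

set_option autoImplicit false
set_option linter.style.haveILetI false
set_option linter.unusedSectionVars false

namespace Fermat.Agent.S36.Mod3.H544

open Polynomial
open Fermat.Agent.S36.Eng

section Nonunits

variable {F : Type*} [Field F]

theorem nu_iff544 (V : ValuationSubring F) (a : F) :
    a ∈ V.nonunits ↔ V.valuation a < 1 := ValuationSubring.mem_nonunits_iff V

theorem nu_mem544 (V : ValuationSubring F) {a : F} (ha : a ∈ V.nonunits) : a ∈ V :=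
  V.nonunits_subset ha

theorem nu_add544 (V : ValuationSubring F) {a b : F} (ha : a ∈ V.nonunits)
    (hb : b ∈ V.nonunits) : a + b ∈ V.nonunits := by
  rw [nu_iff544] at ha hb ⊢
  exact lt_of_le_of_lt (V.valuation.map_add a b) (max_lt ha hb)

theorem nu_neg544 (V : ValuationSubring F) {a : F} (ha : a ∈ V.nonunits) : -a ∈ V.nonunits := by
  rw [nu_iff544] at ha ⊢
  rwa [Valuation.map_neg]

theorem nu_sub544 (V : ValuationSubring F) {a b : F} (ha : a ∈ V.nonunits)
    (hb : b ∈ V.nonunits) : a - b ∈ V.nonunits := by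
  rw [sub_eq_add_neg]
  exact nu_add544 V ha (nu_neg544 V hb)

theorem nu_mul544 (V : ValuationSubring F) {a c : F} (ha : a ∈ V.nonunits) (hc : c ∈ V) :
    a * c ∈ V.nonunits := by
  rw [nu_iff544] at ha ⊢
  rw [map_mul]
  exact mul_lt_one_of_nonneg_of_lt_one_left zero_le ha ((V.valuation_le_one_iff c).2 hc)

/-- Nonunits of a `comap`. -/
theorem nu_comap544 {F' : Type*} [Field F'] (V : ValuationSubring F) (φ : F' →+* F) (a : F') :
    a ∈ (V.comap φ).nonunits ↔ φ a ∈ V.nonunits := by
  by_cases ha : a = 0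
  · subst ha
    rw [map_zero]
    constructor
    · intro _
      rw [nu_iff544, map_zero]
      exact zero_lt_one
    · intro _
      rw [nu_iff544, map_zero]
      exact zero_lt_one
  · have hφa : φ a ≠ 0 := (map_ne_zero φ).2 ha
    -- `a ∈ nonunits ↔ a⁻¹ ∉ ring`
    have key : ∀ (W : ValuationSubring F') (b : F'), b ≠ 0 → (b ∈ W.nonunits ↔ b⁻¹ ∉ W) := by
      intro W b hb
      rw [nu_iff544, ← W.valuation_le_one_iff, map_inv₀, not_le]
      constructor
      · intro h
        exact (one_lt_inv₀ (zero_lt_iff.2 ((Valuation.ne_zero_iff _).2 hb))).2 h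
      · intro h
        exact (one_lt_inv₀ (zero_lt_iff.2 ((Valuation.ne_zero_iff _).2 hb))).1 h
    have key' : ∀ (W : ValuationSubring F) (b : F), b ≠ 0 → (b ∈ W.nonunits ↔ b⁻¹ ∉ W) := by
      intro W b hb
      rw [nu_iff544, ← W.valuation_le_one_iff, map_inv₀, not_le]
      constructor
      · intro h
        exact (one_lt_inv₀ (zero_lt_iff.2 ((Valuation.ne_zero_iff _).2 hb))).2 h
      · intro h
        exact (one_lt_inv₀ (zero_lt_iff.2 ((Valuation.ne_zero_iff _).2 hb))).1 h
    rw [key _ a ha, key' _ (φ a) hφa, ValuationSubring.mem_comap, map_inv₀]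

end Nonunits

section Transfer

variable {R F F' : Type*} [CommRing R] [Field F] [Algebra R F] [Field F'] [Algebra R F']

/-- An element of `F` which is a root of a monic polynomial over `B ⊆ V` modulo `𝔪_V` lies in
`V`. -/
theorem mem_of_monic_root_mod544 (B : Subalgebra R F) (V : ValuationSubring F)
    (hBV : ∀ b ∈ B, b ∈ V) (f : F) (p : Polynomial B) (hp : p.Monic)
    (hpf : Polynomial.aeval f p ∈ V.nonunits) : f ∈ V := by
  classical
  -- the inclusion `B → V`
  let iB : B →+* V := RingHom.codRestrict (B.val : B →+* F) V (fun b => hBV b b.2)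
  have hc : Polynomial.aeval f p ∈ V := nu_mem544 V hpf
  by_cases hdeg : p.natDegree = 0
  · have h1 : p = 1 := Polynomial.eq_one_of_monic_natDegree_zero hp hdeg
    rw [h1, map_one] at hpf
    exact absurd hpf (by
      rw [nu_iff544, map_one]
      exact lt_irrefl _)
  · -- `f` is a root of the monic polynomial `p - c` over `V`
    let c : V := ⟨Polynomial.aeval f p, hc⟩
    let q : Polynomial V := p.map iB - Polynomial.C c
    have hpm : (p.map iB).Monic := hp.map iB
    have hqm : q.Monic := by
      apply Polynomial.Monic.sub_of_left hpm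
      refine lt_of_le_of_lt Polynomial.degree_C_le ?_
      have : (p.map iB).natDegree = p.natDegree := hp.natDegree_map iB
      rw [Polynomial.degree_eq_natDegree hpm.ne_zero, this]
      exact_mod_cast Nat.pos_of_ne_zero hdeg
    have hroot : Polynomial.eval₂ (algebraMap V F) f q = 0 := by
      show Polynomial.eval₂ (algebraMap V F) f (p.map iB - Polynomial.C c) = 0
      rw [Polynomial.eval₂_sub, Polynomial.eval₂_C, Polynomial.eval₂_map]
      have : (algebraMap V F).comp iB = algebraMap B F := by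
        ext b
        rfl
      rw [this]
      show Polynomial.aeval f p - Polynomial.aeval f p = 0
      exact sub_self _
    have hint : IsIntegral V f := ⟨q, hqm, hroot⟩
    obtain ⟨y, hy⟩ := (IsIntegrallyClosed.isIntegral_iff (R := V) (K := F)).1 hint
    rw [← hy]
    exact y.2

/-- **Transfer, residue form**: an element of `F` which is integral over `B` modulo `𝔪_V` is
congruent modulo `𝔪_V` to the image of an element of `B'`. -/
theorem res_of_transfer544 (φ : F' →+* F) (B : Subalgebra R F) (B' : Subalgebra R F')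
    (V : ValuationSubring F) (V' : ValuationSubring F')
    (hcomap : V.comap φ = V')
    (hBV : ∀ b ∈ B, b ∈ V)
    (hB'V : ∀ b' ∈ B', φ b' ∈ V)
    (hres : ∀ f ∈ V, ∃ g ∈ V', f - φ g ∈ V.nonunits)
    (hint : ∀ b ∈ B, ∃ p : Polynomial F', p.Monic ∧ (∀ i, p.coeff i ∈ B') ∧
      (p.map φ).eval b ∈ V.nonunits)
    (hnorm : NormalAlong B' V') :
    ∀ (f : F) (p : Polynomial B), p.Monic → Polynomial.aeval f p ∈ V.nonunits →
      ∃ b' ∈ B', f - φ b' ∈ V.nonunits := by
  classical
  intro f p hp hpf
  have hfV : f ∈ V := mem_of_monic_root_mod544 B V hBV f p hp hpf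
  -- the residue field and the maps into it
  let K := IsLocalRing.ResidueField V
  let ρ : V →+* K := IsLocalRing.residue V
  have hρ : ∀ y : V, ρ y = 0 ↔ (y : F) ∈ V.nonunits := by
    intro y
    rw [IsLocalRing.residue_eq_zero_iff, ValuationSubring.mem_nonunits_iff_exists_mem_maximalIdeal]
    constructor
    · intro h
      exact ⟨y.2, h⟩
    · rintro ⟨_, h⟩
      exact h
  let iB : B →+* V := RingHom.codRestrict (B.val : B →+* F) V (fun b => hBV b b.2)
  let iB' : B' →+* V := RingHom.codRestrict (φ.comp (B'.val : B' →+* F')) V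
    (fun b' => hB'V b' b'.2)
  letI algB'K : Algebra B' K := (ρ.comp iB').toAlgebra
  let A : Subalgebra B' K := integralClosure B' K
  -- Claim A: the image of `B` is integral over `B'`
  have hA : ∀ b : B, ρ (iB b) ∈ A := by
    intro b
    obtain ⟨p', hp', hcoef, hev⟩ := hint b b.2
    have hsub : (↑p'.coeffs : Set F') ⊆ ↑B'.toSubring := by
      intro c hc
      obtain ⟨i, -, rfl⟩ := Polynomial.mem_coeffs_iff.1 (Finset.mem_coe.1 hc)
      exact hcoef i
    let q : Polynomial B' := p'.toSubring B'.toSubring hsub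
    have hq : q.Monic := (p'.monic_toSubring _ _).mpr hp'
    have hqmap : q.map (B'.val : B' →+* F') = p' := p'.map_toSubring B'.toSubring hsub
    refine ⟨q, hq, ?_⟩
    show Polynomial.eval₂ (ρ.comp iB') (ρ (iB b)) q = 0
    rw [← Polynomial.hom_eval₂, hρ]
    have : ((Polynomial.eval₂ iB' (iB b) q : V) : F) = (p'.map φ).eval (b : F) := by
      have h1 := Polynomial.hom_eval₂ q iB' V.subtype (iB b)
      have h2 : V.subtype.comp iB' = φ.comp (B'.val : B' →+* F') := by
        ext b'
        rfl
      rw [h2] at h1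
      show V.subtype (Polynomial.eval₂ iB' (iB b) q) = _
      rw [h1, Polynomial.eval_map, ← hqmap, Polynomial.eval₂_map]
      rfl
    rw [this]
    exact hev
  -- Claim B: the residue of `f` is integral over `A`
  let fV : V := ⟨f, hfV⟩
  have hB : IsIntegral A (ρ fV) := by
    let jBA : B →+* A := RingHom.codRestrict (ρ.comp iB) A hA
    refine ⟨p.map jBA, hp.map jBA, ?_⟩
    rw [Polynomial.eval₂_map]
    have : (algebraMap A K).comp jBA = ρ.comp iB := by
      ext b
      rfl
    rw [this, ← Polynomial.hom_eval₂, hρ]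
    have : ((Polynomial.eval₂ iB fV p : V) : F) = Polynomial.aeval f p := by
      have h1 := Polynomial.hom_eval₂ p iB V.subtype fV
      have h2 : V.subtype.comp iB = algebraMap B F := by
        ext b
        rfl
      rw [h2] at h1
      exact h1
    rw [this]
    exact hpf
  have hC : IsIntegral B' (ρ fV) := isIntegral_trans (R := B') (A := A) (ρ fV) hB
  obtain ⟨q, hq, hq0⟩ := hC
  -- residue degree one
  obtain ⟨g, hg, hfg⟩ := hres f hfV
  have hφg : φ g ∈ V := by
    rw [← hcomap] at hg
    exact hg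
  let gV : V := ⟨φ g, hφg⟩
  have hρg : ρ gV = ρ fV := by
    rw [← sub_eq_zero, ← map_sub, hρ]
    have : ((gV - fV : V) : F) = -(f - φ g) := by
      show φ g - f = -(f - φ g)
      ring
    rw [this]
    exact nu_neg544 V hfg
  -- Claim C
  have hqg : Polynomial.aeval g q ∈ V'.nonunits := by
    rw [← hcomap, nu_comap544]
    have h0 : ρ (Polynomial.eval₂ iB' gV q) = 0 := by
      rw [Polynomial.hom_eval₂, hρg]
      exact hq0
    rw [hρ] at h0
    have : ((Polynomial.eval₂ iB' gV q : V) : F) = φ (Polynomial.aeval g q) := by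
      have h1 := Polynomial.hom_eval₂ q iB' V.subtype gV
      have h2 : V.subtype.comp iB' = φ.comp (algebraMap B' F') := by
        ext b'
        rfl
      rw [h2] at h1
      show V.subtype (Polynomial.eval₂ iB' gV q) = _
      rw [h1]
      show Polynomial.eval₂ (φ.comp (algebraMap B' F')) (φ g) q = φ (Polynomial.aeval g q)
      rw [← Polynomial.hom_eval₂]
      rfl
    rw [← this]
    exact h0
  obtain ⟨b', hb'⟩ := hnorm g q hq hqg
  refine ⟨(b' : F'), b'.2, ?_⟩
  have h1 : φ (g - (b' : F')) ∈ V.nonunits := by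
    rw [← nu_comap544, hcomap]
    exact hb'
  have : f - φ (b' : F') = (f - φ g) + φ (g - (b' : F')) := by
    rw [map_sub]
    ring
  rw [this]
  exact nu_add544 V hfg h1

/-- **Transfer of normality** along a residue-degree-one extension of valuation rings. -/
theorem normalAlong_of_transfer544 (φ : F' →+* F) (B : Subalgebra R F) (B' : Subalgebra R F')
    (V : ValuationSubring F) (V' : ValuationSubring F')
    (hcomap : V.comap φ = V')
    (hBV : ∀ b ∈ B, b ∈ V)
    (hres : ∀ f ∈ V, ∃ g ∈ V', f - φ g ∈ V.nonunits)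
    (hint : ∀ b ∈ B, ∃ p : Polynomial F', p.Monic ∧ (∀ i, p.coeff i ∈ B') ∧
      (p.map φ).eval b ∈ V.nonunits)
    (hchart : ∀ b' ∈ B', φ b' ∈ B)
    (hnorm : NormalAlong B' V') : NormalAlong B V := by
  intro f p hp hpf
  obtain ⟨b', hb', h⟩ := res_of_transfer544 φ B B' V V' hcomap hBV
    (fun b' hb' => hBV _ (hchart b' hb')) hres hint hnorm f p hp hpf
  exact ⟨⟨φ b', hchart b' hb'⟩, h⟩

/-- **Residue degree one in chart form**: every element of `B` is congruent modulo `𝔪_V` to the
image of an element of `B'`. -/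
theorem chartRes_of_transfer544 (φ : F' →+* F) (B : Subalgebra R F) (B' : Subalgebra R F')
    (V : ValuationSubring F) (V' : ValuationSubring F')
    (hcomap : V.comap φ = V')
    (hBV : ∀ b ∈ B, b ∈ V)
    (hB'V : ∀ b' ∈ B', φ b' ∈ V)
    (hres : ∀ f ∈ V, ∃ g ∈ V', f - φ g ∈ V.nonunits)
    (hint : ∀ b ∈ B, ∃ p : Polynomial F', p.Monic ∧ (∀ i, p.coeff i ∈ B') ∧
      (p.map φ).eval b ∈ V.nonunits)
    (hnorm : NormalAlong B' V') :
    ∀ b ∈ B, ∃ b' ∈ B', b - φ b' ∈ V.nonunits := by
  intro b hb
  refine res_of_transfer544 φ B B' V V' hcomap hBV hB'V hres hint hnorm b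
    (Polynomial.X - Polynomial.C ⟨b, hb⟩) (Polynomial.monic_X_sub_C _) ?_
  have : Polynomial.aeval b (Polynomial.X - Polynomial.C (⟨b, hb⟩ : B)) = 0 := by
    rw [map_sub, Polynomial.aeval_X, Polynomial.aeval_C]
    exact sub_self b
  rw [this, nu_iff544, map_zero]
  exact zero_lt_one

end Transfer

section Chart

open Fermat.Agent.S18.H138 (chart mem_chart)

variable {R F F' : Type*} [CommRing R] [Field F] [Algebra R F] [Field F'] [Algebra R F']

/-- `0` is a nonunit. -/
theorem nu_zero544 (V : ValuationSubring F) : (0 : F) ∈ V.nonunits := by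
  rw [nu_iff544, map_zero]
  exact zero_lt_one

/-- Exact integrality implies integrality modulo `𝔪_V`. -/
theorem hint_of_int544 (φ : F' →+* F) (B : Subalgebra R F) (B' : Subalgebra R F')
    (V : ValuationSubring F)
    (h : ∀ b ∈ B, ∃ p : Polynomial F', p.Monic ∧ (∀ i, p.coeff i ∈ B') ∧
      (p.map φ).eval b = 0) :
    ∀ b ∈ B, ∃ p : Polynomial F', p.Monic ∧ (∀ i, p.coeff i ∈ B') ∧
      (p.map φ).eval b ∈ V.nonunits := by
  intro b hb
  obtain ⟨p, hp, hc, h0⟩ := h b hb
  exact ⟨p, hp, hc, by rw [h0]; exact nu_zero544 V⟩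

/-- If the generators `S` are congruent modulo `𝔪_V` to images of elements of `B'`, so is every
element of `R[S]`. -/
theorem adjoin_res544 (φ : F' →+* F) (hφR : ∀ r : R, φ (algebraMap R F' r) = algebraMap R F r)
    (S : Set F) (B' : Subalgebra R F') (V : ValuationSubring F)
    (hB'V : ∀ b' ∈ B', φ b' ∈ V)
    (hgen : ∀ s ∈ S, ∃ y ∈ B', s - φ y ∈ V.nonunits) :
    ∀ c ∈ Algebra.adjoin R S, ∃ y ∈ B', c - φ y ∈ V.nonunits := by
  intro c hc
  induction hc using Algebra.adjoin_induction with
  | mem s hs => exact hgen s hs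
  | algebraMap r =>
    refine ⟨algebraMap R F' r, B'.algebraMap_mem r, ?_⟩
    rw [hφR, sub_self]
    exact nu_zero544 V
  | add a b _ _ ha hb =>
    obtain ⟨y₁, hy₁, h₁⟩ := ha
    obtain ⟨y₂, hy₂, h₂⟩ := hb
    refine ⟨y₁ + y₂, B'.add_mem hy₁ hy₂, ?_⟩
    have : a + b - φ (y₁ + y₂) = (a - φ y₁) + (b - φ y₂) := by
      rw [map_add]
      ring
    rw [this]
    exact nu_add544 V h₁ h₂
  | mul a b _ _ ha hb =>
    obtain ⟨y₁, hy₁, h₁⟩ := ha
    obtain ⟨y₂, hy₂, h₂⟩ := hb
    refine ⟨y₁ * y₂, B'.mul_mem hy₁ hy₂, ?_⟩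
    have hbV : b ∈ V := by
      have := V.add_mem _ _ (nu_mem544 V h₂) (hB'V y₂ hy₂)
      rwa [sub_add_cancel] at this
    have : a * b - φ (y₁ * y₂) = (a - φ y₁) * b + (b - φ y₂) * φ y₁ := by
      rw [map_mul]
      ring
    rw [this]
    exact nu_add544 V (nu_mul544 V h₁ hbV) (nu_mul544 V h₂ (hB'V y₁ hy₁))

/-- **Integrality modulo `𝔪_V` from generators**: if the generators `S` of the chart are
congruent modulo `𝔪_V` to images of elements of `B'`, the chart `chart R S` is integral over
`φ B'` modulo `𝔪_V`. -/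
theorem hint_of_gen544 (φ : F' →+* F) (hφR : ∀ r : R, φ (algebraMap R F' r) = algebraMap R F r)
    (S : Set F) (B' : Subalgebra R F') (V : ValuationSubring F)
    (hB'V : ∀ b' ∈ B', φ b' ∈ V)
    (hgen : ∀ s ∈ S, ∃ y ∈ B', s - φ y ∈ V.nonunits) :
    ∀ b ∈ chart R S, ∃ p : Polynomial F', p.Monic ∧ (∀ i, p.coeff i ∈ B') ∧
      (p.map φ).eval b ∈ V.nonunits := by
  classical
  have hadj := adjoin_res544 φ hφR S B' V hB'V hgen
  have hCV : ∀ c ∈ Algebra.adjoin R S, c ∈ V := by
    intro c hc
    obtain ⟨y, hy, h⟩ := hadj c hc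
    have := V.add_mem _ _ (nu_mem544 V h) (hB'V y hy)
    rwa [sub_add_cancel] at this
  intro b hb
  obtain ⟨P, hP, hPb⟩ := (mem_chart.1 hb : IsIntegral (Algebra.adjoin R S) b)
  have hbV : b ∈ V := by
    refine mem_of_monic_root_mod544 (Algebra.adjoin R S) V hCV b P hP ?_
    rw [Polynomial.aeval_def, hPb]
    exact nu_zero544 V
  let K := IsLocalRing.ResidueField V
  let ρ : V →+* K := IsLocalRing.residue V
  have hρ : ∀ y : V, ρ y = 0 ↔ (y : F) ∈ V.nonunits := by
    intro y
    rw [IsLocalRing.residue_eq_zero_iff, ValuationSubring.mem_nonunits_iff_exists_mem_maximalIdeal]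
    constructor
    · intro h
      exact ⟨y.2, h⟩
    · rintro ⟨_, h⟩
      exact h
  let iC : Algebra.adjoin R S →+* V :=
    RingHom.codRestrict ((Algebra.adjoin R S).val : Algebra.adjoin R S →+* F) V
      (fun c => hCV c c.2)
  let iB' : B' →+* V := RingHom.codRestrict (φ.comp (B'.val : B' →+* F')) V
    (fun b' => hB'V b' b'.2)
  letI algB'K : Algebra B' K := (ρ.comp iB').toAlgebra
  let A : Subalgebra B' K := integralClosure B' K
  have hA : ∀ c : Algebra.adjoin R S, ρ (iC c) ∈ A := by
    intro c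
    obtain ⟨y, hy, h⟩ := hadj c c.2
    have : ρ (iC c) = algebraMap B' K ⟨y, hy⟩ := by
      show ρ (iC c) = ρ (iB' ⟨y, hy⟩)
      rw [← sub_eq_zero, ← map_sub, hρ]
      exact h
    rw [this]
    exact A.algebraMap_mem _
  let bV : V := ⟨b, hbV⟩
  have hB : IsIntegral A (ρ bV) := by
    let jCA : Algebra.adjoin R S →+* A := RingHom.codRestrict (ρ.comp iC) A hA
    refine ⟨P.map jCA, hP.map jCA, ?_⟩
    rw [Polynomial.eval₂_map]
    have : (algebraMap A K).comp jCA = ρ.comp iC := by
      ext c
      rfl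
    rw [this, ← Polynomial.hom_eval₂, hρ]
    have : ((Polynomial.eval₂ iC bV P : V) : F) =
        Polynomial.eval₂ (algebraMap (Algebra.adjoin R S) F) b P := by
      have h1 := Polynomial.hom_eval₂ P iC V.subtype bV
      have h2 : V.subtype.comp iC = algebraMap (Algebra.adjoin R S) F := by
        ext c
        rfl
      rw [h2] at h1
      exact h1
    rw [this, hPb]
    exact nu_zero544 V
  have hC : IsIntegral B' (ρ bV) := isIntegral_trans (R := B') (A := A) (ρ bV) hB
  obtain ⟨Q, hQ, hQ0⟩ := hC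
  refine ⟨Q.map (B'.val : B' →+* F'), hQ.map _, ?_, ?_⟩
  · intro i
    rw [Polynomial.coeff_map]
    exact (Q.coeff i).2
  · have h0 : ρ (Polynomial.eval₂ iB' bV Q) = 0 := by
      rw [Polynomial.hom_eval₂]
      exact hQ0
    rw [hρ] at h0
    have : ((Polynomial.eval₂ iB' bV Q : V) : F) =
        ((Q.map (B'.val : B' →+* F')).map φ).eval b := by
      have h1 := Polynomial.hom_eval₂ Q iB' V.subtype bV
      have h2 : V.subtype.comp iB' = φ.comp (B'.val : B' →+* F') := by
        ext b'
        rfl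
      rw [h2] at h1
      show V.subtype (Polynomial.eval₂ iB' bV Q) = _
      rw [h1, Polynomial.map_map, Polynomial.eval_map]
      rfl
    rw [← this]
    exact h0

end Chart

end Fermat.Agent.S36.Mod3.H544
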