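import Fermat.Agent.S36.Mod3.SpecVT
import Fermat.Agent.S36.Mod3.H189.ChartLeaf
import Fermat.Agent.S36.Mod3.H544.NormalCore

/-!
# S36 / MOD3, leaf NORMAL (helper544): the six `NormalAlong` and the four chart-level `res`
from the valuation-level table and the normality of the two components of level `M q`

Generic part (abstract `R`, `E`, `F`, `F'`).

* `PartNormMq544`: the INPUT from level `M q` (cell A2 / `S35.G.ModelStatement`): the two
  components `V₁'`, `V₂'` of both charts `chart R {x'}`, `chart R {x'⁻¹}` are normal.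
* `partNormal_of544`, `partRes_of544`: the six `NormalAlong` of level `M q q` (both charts) and
  the four chart-level residue statements of `PartChart`, from `PartVT` (residue degree one,
  Kronecker), `PartTable` (lying over), `PartVal` (`x` unit), `PartSheet` (`R ⊆ V_i`).

Finite chart: `chart R {x}` is integral over `α (chart R {x'})` (`int_α`, `int_β`).
Chart at infinity: `chart R {x⁻¹}` is integral over `α (chart R {x'⁻¹})` only MODULO `𝔪_V`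
(`x⁻¹ ≡ α (j'⁻¹ (j_q'⁻¹)^(q+1))` on `V₁`, `≡ α ((j'⁻¹)² j_q'⁻¹)` on `V₂`,
`≡ β ((j'⁻¹)^(q+1) j_q'⁻¹)` on `V₃`), which is all `H544.res_of_transfer544` needs.
-/

set_option autoImplicit false
set_option linter.style.haveILetI false
set_option linter.unusedSectionVars false
set_option synthInstance.maxHeartbeats 400000
set_option maxHeartbeats 1600000

namespace Fermat.Agent.S36.Mod3.H544

open Polynomial
open Fermat.Agent.S18.H138 (chart mem_chart mem_chart_of_mem)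
open Fermat.Agent.S36.Eng

section Generic

variable {R E F F' : Type*} [CommRing R] [Field E] [Algebra R E]
  [Field F] [Algebra E F] [Algebra R F] [IsScalarTower R E F]
  [Field F'] [Algebra E F'] [Algebra R F'] [IsScalarTower R E F']

/-- **Input from level `M q`**: the two components of both charts are normal. -/
structure PartNormMq544 (R : Type*) [CommRing R] {F' : Type*} [Field F'] [Algebra R F']
    (x' : F') (V₁' V₂' : ValuationSubring F') : Prop where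
  normal_f₁' : NormalAlong (chart R ({x'} : Set F')) V₁'
  normal_f₂' : NormalAlong (chart R ({x'} : Set F')) V₂'
  normal_i₁' : NormalAlong (chart R ({x'⁻¹} : Set F')) V₁'
  normal_i₂' : NormalAlong (chart R ({x'⁻¹} : Set F')) V₂'

/-- An `E`-algebra homomorphism is `R`-linear. -/
theorem algHom_algebraMap544 (φ : F' →ₐ[E] F) (r : R) :
    (φ : F' →+* F) (algebraMap R F' r) = algebraMap R F r := by
  rw [IsScalarTower.algebraMap_apply R E F', IsScalarTower.algebraMap_apply R E F]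
  exact φ.commutes _

/-- The chart of `s` lies in every valuation ring containing `R` and `s`. -/
theorem chart_le544 (s : F) (V : ValuationSubring F) (hbase : ∀ r : R, algebraMap R F r ∈ V)
    (hs : s ∈ V) : ∀ b ∈ chart R ({s} : Set F), b ∈ V := by
  intro b hb
  have hadj : ∀ c ∈ Algebra.adjoin R ({s} : Set F), c ∈ V := by
    intro c hc
    induction hc using Algebra.adjoin_induction with
    | mem y hy =>
      rw [Set.mem_singleton_iff] at hy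
      rw [hy]
      exact hs
    | algebraMap r => exact hbase r
    | add a b _ _ ha hb => exact V.add_mem _ _ ha hb
    | mul a b _ _ ha hb => exact V.mul_mem _ _ ha hb
  obtain ⟨P, hP, hPb⟩ := (mem_chart.1 hb : IsIntegral (Algebra.adjoin R ({s} : Set F)) b)
  refine mem_of_monic_root_mod544 (Algebra.adjoin R ({s} : Set F)) V hadj b P hP ?_
  rw [Polynomial.aeval_def, hPb]
  exact nu_zero544 V

/-- One transfer, residue form, integrality modulo `𝔪_V` given on the generator. -/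
theorem res_chart_gen544 (φ : F' →ₐ[E] F) (s : F) (B' : Subalgebra R F')
    (V : ValuationSubring F) (V' : ValuationSubring F')
    (hcomap : V.comap (φ : F' →+* F) = V')
    (hbase : ∀ r : R, algebraMap R F r ∈ V) (hs : s ∈ V)
    (hres : ∀ f ∈ V, ∃ g ∈ V', f - φ g ∈ V.nonunits)
    (hchart : ∀ b ∈ B', φ b ∈ chart R ({s} : Set F))
    (hgen : ∃ y ∈ B', s - φ y ∈ V.nonunits)
    (hnorm : NormalAlong B' V') :
    ∀ (f : F) (p : Polynomial (chart R ({s} : Set F))), p.Monic →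
      Polynomial.aeval f p ∈ V.nonunits → ∃ b' ∈ B', f - φ b' ∈ V.nonunits := by
  have hBV := chart_le544 (R := R) s V hbase hs
  have hB'V : ∀ b' ∈ B', (φ : F' →+* F) b' ∈ V := fun b' hb' => hBV _ (hchart b' hb')
  refine res_of_transfer544 (φ : F' →+* F) (chart R ({s} : Set F)) B' V V' hcomap hBV hB'V
    hres ?_ hnorm
  refine hint_of_gen544 (φ : F' →+* F) (algHom_algebraMap544 φ) ({s} : Set F) B' V hB'V ?_
  intro t ht
  rw [Set.mem_singleton_iff] at ht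
  rw [ht]
  exact hgen

/-- One transfer, residue form, exact integrality. -/
theorem res_chart_int544 (φ : F' →ₐ[E] F) (s : F) (B' : Subalgebra R F')
    (V : ValuationSubring F) (V' : ValuationSubring F')
    (hcomap : V.comap (φ : F' →+* F) = V')
    (hbase : ∀ r : R, algebraMap R F r ∈ V) (hs : s ∈ V)
    (hres : ∀ f ∈ V, ∃ g ∈ V', f - φ g ∈ V.nonunits)
    (hchart : ∀ b ∈ B', φ b ∈ chart R ({s} : Set F))
    (hint : ∀ b ∈ chart R ({s} : Set F), ∃ p : Polynomial F', p.Monic ∧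
      (∀ i, p.coeff i ∈ B') ∧ (p.map (φ : F' →+* F)).eval b = 0)
    (hnorm : NormalAlong B' V') :
    ∀ (f : F) (p : Polynomial (chart R ({s} : Set F))), p.Monic →
      Polynomial.aeval f p ∈ V.nonunits → ∃ b' ∈ B', f - φ b' ∈ V.nonunits := by
  have hBV := chart_le544 (R := R) s V hbase hs
  have hB'V : ∀ b' ∈ B', (φ : F' →+* F) b' ∈ V := fun b' hb' => hBV _ (hchart b' hb')
  exact res_of_transfer544 (φ : F' →+* F) (chart R ({s} : Set F)) B' V V' hcomap hBV hB'V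
    hres (hint_of_int544 (φ : F' →+* F) _ B' V hint) hnorm

/-- From the residue form to `NormalAlong`. -/
theorem normalAlong_of_res544 (φ : F' →ₐ[E] F) (B : Subalgebra R F) (B' : Subalgebra R F')
    (V : ValuationSubring F) (hchart : ∀ b ∈ B', φ b ∈ B)
    (h : ∀ (f : F) (p : Polynomial B), p.Monic →
      Polynomial.aeval f p ∈ V.nonunits → ∃ b' ∈ B', f - φ b' ∈ V.nonunits) :
    NormalAlong B V := by
  intro f p hp hpf
  obtain ⟨b', hb', hfb⟩ := h f p hp hpf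
  exact ⟨⟨φ b', hchart b' hb'⟩, hfb⟩

/-- From the residue form to the chart-level residue statement. -/
theorem chartRes_of_res544 (φ : F' →ₐ[E] F) (B : Subalgebra R F) (B' : Subalgebra R F')
    (V : ValuationSubring F)
    (h : ∀ (f : F) (p : Polynomial B), p.Monic →
      Polynomial.aeval f p ∈ V.nonunits → ∃ b' ∈ B', f - φ b' ∈ V.nonunits) :
    ∀ b ∈ B, ∃ b' ∈ B', b - φ b' ∈ V.nonunits := by
  intro b hb
  refine h b (Polynomial.X - Polynomial.C ⟨b, hb⟩) (Polynomial.monic_X_sub_C _) ?_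
  have : Polynomial.aeval b (Polynomial.X - Polynomial.C (⟨b, hb⟩ : B)) = 0 := by
    rw [map_sub, Polynomial.aeval_X, Polynomial.aeval_C]
    exact sub_self b
  rw [this]
  exact nu_zero544 V

/-! ### The three congruences of the chart at infinity -/

/-- `a⁻¹ b⁻¹ c⁻¹ ≡ a⁻¹ (b⁻¹)^(q+1)` when `c ≡ b^q`. -/
theorem cong_inv_A544 (V : ValuationSubring F) (q : ℕ) {a b c : F} (hb0 : b ≠ 0) (hc0 : c ≠ 0)
    (ha : a⁻¹ ∈ V) (hb : b⁻¹ ∈ V) (hc : c⁻¹ ∈ V) (h : c - b ^ q ∈ V.nonunits) :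
    (a * b * c)⁻¹ - a⁻¹ * b⁻¹ ^ (q + 1) ∈ V.nonunits := by
  have e : (a * b * c)⁻¹ - a⁻¹ * b⁻¹ ^ (q + 1) =
      (-(c - b ^ q)) * (a⁻¹ * b⁻¹ * c⁻¹ * b⁻¹ ^ q) := by
    have hbq : b ^ q * b⁻¹ ^ q = 1 := by rw [← mul_pow, mul_inv_cancel₀ hb0, one_pow]
    have hcc : c * c⁻¹ = 1 := mul_inv_cancel₀ hc0
    rw [mul_inv, mul_inv, pow_succ]
    linear_combination (a⁻¹ * b⁻¹ * b⁻¹ ^ q) * hcc - (a⁻¹ * b⁻¹ * c⁻¹) * hbq
  rw [e]
  exact nu_mul544 V (nu_neg544 V h)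
    (V.mul_mem _ _ (V.mul_mem _ _ (V.mul_mem _ _ ha hb) hc) (pow_mem hb q))

/-- `a⁻¹ b⁻¹ c⁻¹ ≡ (a⁻¹)² b⁻¹` when `c ≡ a`. -/
theorem cong_inv_B544 (V : ValuationSubring F) {a b c : F} (ha0 : a ≠ 0) (hc0 : c ≠ 0)
    (ha : a⁻¹ ∈ V) (hb : b⁻¹ ∈ V) (hc : c⁻¹ ∈ V) (h : c - a ∈ V.nonunits) :
    (a * b * c)⁻¹ - a⁻¹ ^ 2 * b⁻¹ ∈ V.nonunits := by
  have e : (a * b * c)⁻¹ - a⁻¹ ^ 2 * b⁻¹ = (-(c - a)) * (a⁻¹ * b⁻¹ * c⁻¹ * a⁻¹) := by
    have haa : a * a⁻¹ = 1 := mul_inv_cancel₀ ha0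
    have hcc : c * c⁻¹ = 1 := mul_inv_cancel₀ hc0
    rw [mul_inv, mul_inv]
    linear_combination (a⁻¹ * b⁻¹ * a⁻¹) * hcc - (a⁻¹ * b⁻¹ * c⁻¹) * haa
  rw [e]
  exact nu_mul544 V (nu_neg544 V h)
    (V.mul_mem _ _ (V.mul_mem _ _ (V.mul_mem _ _ ha hb) hc) ha)

/-- `a⁻¹ b⁻¹ c⁻¹ ≡ (b⁻¹)^(q+1) c⁻¹` when `a ≡ b^q`. -/
theorem cong_inv_C544 (V : ValuationSubring F) (q : ℕ) {a b c : F} (ha0 : a ≠ 0) (hb0 : b ≠ 0)
    (ha : a⁻¹ ∈ V) (hb : b⁻¹ ∈ V) (hc : c⁻¹ ∈ V) (h : a - b ^ q ∈ V.nonunits) :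
    (a * b * c)⁻¹ - b⁻¹ ^ (q + 1) * c⁻¹ ∈ V.nonunits := by
  have e : (a * b * c)⁻¹ - b⁻¹ ^ (q + 1) * c⁻¹ =
      (-(a - b ^ q)) * (a⁻¹ * b⁻¹ * c⁻¹ * b⁻¹ ^ q) := by
    have hbq : b ^ q * b⁻¹ ^ q = 1 := by rw [← mul_pow, mul_inv_cancel₀ hb0, one_pow]
    have haa : a * a⁻¹ = 1 := mul_inv_cancel₀ ha0
    rw [mul_inv, mul_inv, pow_succ]
    linear_combination (b⁻¹ * c⁻¹ * b⁻¹ ^ q) * haa - (a⁻¹ * b⁻¹ * c⁻¹) * hbq
  rw [e]
  exact nu_mul544 V (nu_neg544 V h)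
    (V.mul_mem _ _ (V.mul_mem _ _ (V.mul_mem _ _ ha hb) hc) (pow_mem hb q))

/-! ### Assembly (generic) -/

section Assembly

variable (w : R) (q : ℕ) (α β : F' →ₐ[E] F) (j jq jqq : F) (j' jq' x' : F')
  (V₁ V₂ V₃ : ValuationSubring F) (V₁' V₂' : ValuationSubring F')

/-- `α` maps the chart at infinity of level `M q` into the chart at infinity of level `M q q`. -/
theorem chart_inf_α544 (hx' : x' = j' * jq') (hαj : α j' = j) (hαjq : α jq' = jq)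
    (hji : j⁻¹ ∈ chart R ({(j * jq * jqq)⁻¹} : Set F))
    (hjqi : jq⁻¹ ∈ chart R ({(j * jq * jqq)⁻¹} : Set F)) :
    ∀ b ∈ chart R ({x'⁻¹} : Set F'), α b ∈ chart R ({(j * jq * jqq)⁻¹} : Set F) := by
  apply Fermat.Agent.S36.Mod3.H189.chart_map (R := R)
  have e : α x'⁻¹ = j⁻¹ * jq⁻¹ := by
    rw [hx', map_inv₀, map_mul, hαj, hαjq, mul_inv]
  rw [e]
  exact (chart R ({(j * jq * jqq)⁻¹} : Set F)).mul_mem hji hjqi

/-- `β` maps the chart at infinity of level `M q` into the chart at infinity of level `M q q`. -/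
theorem chart_inf_β544 (hx' : x' = j' * jq') (hβj : β j' = jq) (hβjq : β jq' = jqq)
    (hjqi : jq⁻¹ ∈ chart R ({(j * jq * jqq)⁻¹} : Set F))
    (hjqqi : jqq⁻¹ ∈ chart R ({(j * jq * jqq)⁻¹} : Set F)) :
    ∀ b ∈ chart R ({x'⁻¹} : Set F'), β b ∈ chart R ({(j * jq * jqq)⁻¹} : Set F) := by
  apply Fermat.Agent.S36.Mod3.H189.chart_map (R := R)
  have e : β x'⁻¹ = jq⁻¹ * jqq⁻¹ := by
    rw [hx', map_inv₀, map_mul, hβj, hβjq, mul_inv]
  rw [e]
  exact (chart R ({(j * jq * jqq)⁻¹} : Set F)).mul_mem hjqi hjqqi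

/-- **The six `NormalAlong`** of level `M q q`. -/
theorem partNormal_of544 (hx' : x' = j' * jq')
    (hαj : α j' = j) (hαjq : α jq' = jq) (hβj : β j' = jq) (hβjq : β jq' = jqq)
    (hj0 : j ≠ 0) (hjq0 : jq ≠ 0) (hjqq0 : jqq ≠ 0)
    (hVT : PartVT w q α β j jq jqq V₁ V₂ V₃ V₁' V₂')
    (hT : PartTable α β V₁ V₂ V₃ V₁' V₂')
    (hVal : PartVal w q (j * jq * jqq) V₁ V₂ V₃)
    (hSh : PartSheet w (j * jq * jqq) V₁ V₂ V₃)
    (hcα : ∀ b ∈ chart R ({x'} : Set F'), α b ∈ chart R ({j * jq * jqq} : Set F))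
    (hcβ : ∀ b ∈ chart R ({x'} : Set F'), β b ∈ chart R ({j * jq * jqq} : Set F))
    (hiα : ∀ b ∈ chart R ({j * jq * jqq} : Set F), ∃ p : Polynomial F', p.Monic ∧
      (∀ i, p.coeff i ∈ chart R ({x'} : Set F')) ∧ (p.map (α : F' →+* F)).eval b = 0)
    (hiβ : ∀ b ∈ chart R ({j * jq * jqq} : Set F), ∃ p : Polynomial F', p.Monic ∧
      (∀ i, p.coeff i ∈ chart R ({x'} : Set F')) ∧ (p.map (β : F' →+* F)).eval b = 0)
    (hji : j⁻¹ ∈ chart R ({(j * jq * jqq)⁻¹} : Set F))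
    (hjqi : jq⁻¹ ∈ chart R ({(j * jq * jqq)⁻¹} : Set F))
    (hjqqi : jqq⁻¹ ∈ chart R ({(j * jq * jqq)⁻¹} : Set F))
    (hj'i : j'⁻¹ ∈ chart R ({x'⁻¹} : Set F'))
    (hjq'i : jq'⁻¹ ∈ chart R ({x'⁻¹} : Set F'))
    (hN : PartNormMq544 R x' V₁' V₂') :
    PartNormal R (j * jq * jqq) V₁ V₂ V₃ := by
  have hcαi := chart_inf_α544 (R := R) α j jq jqq j' jq' x' hx' hαj hαjq hji hjqi
  have hcβi := chart_inf_β544 (R := R) β j jq jqq j' jq' x' hx' hβj hβjq hjqi hjqqi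
  have hBi₁ := chart_le544 (R := R) (j * jq * jqq)⁻¹ V₁ hSh.base₁ hVal.x_unit₁.2.2
  have hBi₂ := chart_le544 (R := R) (j * jq * jqq)⁻¹ V₂ hSh.base₂ hVal.x_unit₂.2.2
  have hBi₃ := chart_le544 (R := R) (j * jq * jqq)⁻¹ V₃ hSh.base₃ hVal.x_unit₃.2.2
  -- the three elements of the chart at infinity of level `M q`
  have hyA : j'⁻¹ * jq'⁻¹ ^ (q + 1) ∈ chart R ({x'⁻¹} : Set F') :=
    (chart R ({x'⁻¹} : Set F')).mul_mem hj'i (pow_mem hjq'i _)
  have hyB : j'⁻¹ ^ 2 * jq'⁻¹ ∈ chart R ({x'⁻¹} : Set F') :=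
    (chart R ({x'⁻¹} : Set F')).mul_mem (pow_mem hj'i _) hjq'i
  have hyC : j'⁻¹ ^ (q + 1) * jq'⁻¹ ∈ chart R ({x'⁻¹} : Set F') :=
    (chart R ({x'⁻¹} : Set F')).mul_mem (pow_mem hj'i _) hjq'i
  have eA : α (j'⁻¹ * jq'⁻¹ ^ (q + 1)) = j⁻¹ * jq⁻¹ ^ (q + 1) := by
    rw [map_mul, map_pow, map_inv₀, map_inv₀, hαj, hαjq]
  have eB : α (j'⁻¹ ^ 2 * jq'⁻¹) = j⁻¹ ^ 2 * jq⁻¹ := by
    rw [map_mul, map_pow, map_inv₀, map_inv₀, hαj, hαjq]
  have eC : β (j'⁻¹ ^ (q + 1) * jq'⁻¹) = jq⁻¹ ^ (q + 1) * jqq⁻¹ := by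
    rw [map_mul, map_pow, map_inv₀, map_inv₀, hβj, hβjq]
  refine
    { normal_f₁ := normalAlong_of_res544 α _ _ V₁ hcα
        (res_chart_int544 α (j * jq * jqq) _ V₁ V₁' hT.comap_α₁ hSh.base₁ hVal.x_unit₁.2.1
          hVT.res_α₁ hcα hiα hN.normal_f₁')
      normal_f₂ := normalAlong_of_res544 α _ _ V₂ hcα
        (res_chart_int544 α (j * jq * jqq) _ V₂ V₁' hT.comap_α₂ hSh.base₂ hVal.x_unit₂.2.1
          hVT.res_α₂ hcα hiα hN.normal_f₁')
      normal_f₃ := normalAlong_of_res544 β _ _ V₃ hcβ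
        (res_chart_int544 β (j * jq * jqq) _ V₃ V₂' hT.comap_β₃ hSh.base₃ hVal.x_unit₃.2.1
          hVT.res_β₃ hcβ hiβ hN.normal_f₂')
      normal_i₁ := normalAlong_of_res544 α _ _ V₁ hcαi
        (res_chart_gen544 α (j * jq * jqq)⁻¹ _ V₁ V₁' hT.comap_α₁ hSh.base₁ hVal.x_unit₁.2.2
          hVT.res_α₁ hcαi ⟨_, hyA, ?_⟩ hN.normal_i₁')
      normal_i₂ := normalAlong_of_res544 α _ _ V₂ hcαi
        (res_chart_gen544 α (j * jq * jqq)⁻¹ _ V₂ V₁' hT.comap_α₂ hSh.base₂ hVal.x_unit₂.2.2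
          hVT.res_α₂ hcαi ⟨_, hyB, ?_⟩ hN.normal_i₁')
      normal_i₃ := normalAlong_of_res544 β _ _ V₃ hcβi
        (res_chart_gen544 β (j * jq * jqq)⁻¹ _ V₃ V₂' hT.comap_β₃ hSh.base₃ hVal.x_unit₃.2.2
          hVT.res_β₃ hcβi ⟨_, hyC, ?_⟩ hN.normal_i₂') }
  · rw [eA]
    exact cong_inv_A544 V₁ q hjq0 hjqq0 (hBi₁ _ hji) (hBi₁ _ hjqi) (hBi₁ _ hjqqi) hVT.kron₁.2
  · rw [eB]
    exact cong_inv_B544 V₂ hj0 hjqq0 (hBi₂ _ hji) (hBi₂ _ hjqi) (hBi₂ _ hjqqi) hVT.kron₂.2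
  · rw [eC]
    exact cong_inv_C544 V₃ q hj0 hjq0 (hBi₃ _ hji) (hBi₃ _ hjqi) (hBi₃ _ hjqqi) hVT.kron₃.1

/-- **The four chart-level residue statements** of `PartChart`. -/
theorem partRes_of544
    (hVT : PartVT w q α β j jq jqq V₁ V₂ V₃ V₁' V₂')
    (hT : PartTable α β V₁ V₂ V₃ V₁' V₂')
    (hVal : PartVal w q (j * jq * jqq) V₁ V₂ V₃)
    (hSh : PartSheet w (j * jq * jqq) V₁ V₂ V₃)
    (hcα : ∀ b ∈ chart R ({x'} : Set F'), α b ∈ chart R ({j * jq * jqq} : Set F))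
    (hcβ : ∀ b ∈ chart R ({x'} : Set F'), β b ∈ chart R ({j * jq * jqq} : Set F))
    (hiα : ∀ b ∈ chart R ({j * jq * jqq} : Set F), ∃ p : Polynomial F', p.Monic ∧
      (∀ i, p.coeff i ∈ chart R ({x'} : Set F')) ∧ (p.map (α : F' →+* F)).eval b = 0)
    (hiβ : ∀ b ∈ chart R ({j * jq * jqq} : Set F), ∃ p : Polynomial F', p.Monic ∧
      (∀ i, p.coeff i ∈ chart R ({x'} : Set F')) ∧ (p.map (β : F' →+* F)).eval b = 0)
    (hN : PartNormMq544 R x' V₁' V₂') :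
    Fermat.Agent.S36.Mod3.H189.PartRes R α β (j * jq * jqq) x' V₁ V₂ V₃ :=
  { res_α₁ := chartRes_of_res544 α _ _ V₁
      (res_chart_int544 α (j * jq * jqq) _ V₁ V₁' hT.comap_α₁ hSh.base₁ hVal.x_unit₁.2.1
        hVT.res_α₁ hcα hiα hN.normal_f₁')
    res_α₂ := chartRes_of_res544 α _ _ V₂
      (res_chart_int544 α (j * jq * jqq) _ V₂ V₁' hT.comap_α₂ hSh.base₂ hVal.x_unit₂.2.1
        hVT.res_α₂ hcα hiα hN.normal_f₁')
    res_β₃ := chartRes_of_res544 β _ _ V₃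
      (res_chart_int544 β (j * jq * jqq) _ V₃ V₂' hT.comap_β₃ hSh.base₃ hVal.x_unit₃.2.1
        hVT.res_β₃ hcβ hiβ hN.normal_f₂')
    res_β₂ := chartRes_of_res544 β _ _ V₂
      (res_chart_int544 β (j * jq * jqq) _ V₂ V₂' hT.comap_β₂ hSh.base₂ hVal.x_unit₂.2.1
        hVT.res_β₂ hcβ hiβ hN.normal_f₂') }

end Assembly

end Generic

end Fermat.Agent.S36.Mod3.H544
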