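import Fermat.Agent.S36.Mod3.H544.NormalGen

/-!
# S36 / MOD3, leaves NORMAL and RES (helper544), concrete form

* `LeafNormMq544` : the INPUT from level `M q` — the two components `V₁' = V∞`, `V₂' = V₀` of the
  two charts `chart R {x'}`, `chart R {x'⁻¹}` (`x' = j j_q`) of the model of cell A2 are normal
  (`Eng.NormalAlong`), in the binder form `Mod3.Leaf`.
* `leafNormal_of544 : LeafVT → LeafTable → LeafVal → LeafSheet → LeafNormMq544 → Mod3.LeafNormal`
  (the six `NormalAlong` of level `M q q`, both charts);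
* `leafRes_of544    : LeafVT → LeafTable → LeafVal → LeafSheet → LeafNormMq544 → H189.LeafRes`
  (the four chart-level residue fields of `PartChart`);
* `leafChart_of544  : … → Mod3.LeafChart` (with helper189's `leafChart_of_res`).
-/

set_option autoImplicit false
set_option linter.style.haveILetI false
set_option linter.unusedSectionVars false
set_option synthInstance.maxHeartbeats 400000
set_option maxHeartbeats 1600000

noncomputable section

namespace Fermat.Agent.S36.Mod3.H544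

open ModularCurve Polynomial
open Fermat.Agent.S18.H138 (chart mem_chart mem_chart_of_mem)
open Fermat.Agent.S36.Eng
open Fermat.Agent

/-- **NORMAL at level `M q` (leaf, input of cell A2).** -/
def LeafNormMq544 : Prop :=
  Mod3.Leaf fun P E M q _ _ _ _ V₁' V₂' _ _ _ =>
    PartNormMq544 (A2.RE P E) (A2.Mod.xE E M q) V₁' V₂'

section Concrete

variable (P : ValuationSubring A2.Qb) (E : IntermediateField ℚ A2.Qb) (M q : ℕ)
  [NeZero M] [NeZero q] [NeZero (M * q)]

/-- `j⁻¹ ∈ chart R {x'⁻¹}` at level `M q`. -/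
theorem j'_inv_mem_chart544 (hq : q.Prime) :
    (H189.j' E M q)⁻¹ ∈
      chart (A2.RE P E) ({(A2.Mod.xE E M q)⁻¹} : Set (A2.Mod.FE E (M * q))) := by
  obtain ⟨D⟩ := S28.H807.nonempty_modPolyData q hq
  exact H189.mem_chart_of_isIntegral_closure
    (A2.Mod.H873.isIntegral_closure_inv_mul (A2.Mod.H873.jE_ne_zero E _ _ _) D.Φ D.monic
      (H189.modEq_jq' E M q D))

/-- `j_q⁻¹ ∈ chart R {x'⁻¹}` at level `M q`. -/
theorem jq'_inv_mem_chart544 (hq : q.Prime) :
    (H189.jq' E M q)⁻¹ ∈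
      chart (A2.RE P E) ({(A2.Mod.xE E M q)⁻¹} : Set (A2.Mod.FE E (M * q))) := by
  obtain ⟨D⟩ := S28.H807.nonempty_modPolyData q hq
  have h := A2.Mod.H873.isIntegral_closure_inv_mul (A2.Mod.H873.jE_ne_zero E _ _ _) D.Φ D.monic
      (H189.modEq_j' E M q D)
  rw [mul_comm (H189.jq' E M q) (H189.j' E M q)] at h
  exact H189.mem_chart_of_isIntegral_closure h

end Concrete

/-- **`Mod3.LeafNormal`** from the valuation-level table and the normality at level `M q`. -/
theorem leafNormal_of544 (hVT : LeafVT) (hT : LeafTable) (hV : LeafVal) (hS : LeafSheet)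
    (hN : LeafNormMq544) : LeafNormal := by
  intro P E M q _ _ _ w hStd V₁' V₂' V₁ V₂ V₃ W' W hO
  have hq := hStd.q_prime
  exact partNormal_of544 (R := A2.RE P E) w q (A2.Mod.αE E (M * q) q) (A2.Mod.βE E (M * q) q)
    (j1 E M q) (jq E M q) (jqq E M q) (H189.j' E M q) (H189.jq' E M q) (A2.Mod.xE E M q)
    V₁ V₂ V₃ V₁' V₂' rfl
    (H189.alpha_j' E M q) (H189.alpha_jq' E M q) (H189.beta_j' E M q) (H189.beta_jq' E M q)
    (A2.Mod.H873.jE_ne_zero E _ _ _) (A2.Mod.H873.jE_ne_zero E _ _ _)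
    (A2.Mod.H873.jE_ne_zero E _ _ _)
    (hVT P E M q w hStd V₁' V₂' V₁ V₂ V₃ W' W hO)
    (hT P E M q w hStd V₁' V₂' V₁ V₂ V₃ W' W hO)
    (hV P E M q w hStd V₁' V₂' V₁ V₂ V₃ W' W hO)
    (hS P E M q w hStd V₁' V₂' V₁ V₂ V₃ W' W hO)
    (H189.chart_α_x3E P E M q hq) (H189.chart_β_x3E P E M q hq)
    (H189.int_α_x3E P E M q hq) (H189.int_β_x3E P E M q hq)
    (H189.j1_inv_mem_chart P E M q hq) (H189.jq_inv_mem_chart' P E M q hq)
    (H189.jqq_inv_mem_chart' P E M q hq)
    (j'_inv_mem_chart544 P E M q hq) (jq'_inv_mem_chart544 P E M q hq)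
    (hN P E M q w hStd V₁' V₂' V₁ V₂ V₃ W' W hO)

/-- **`H189.LeafRes`** (the four chart-level residue fields of `PartChart`) from the
valuation-level table and the normality at level `M q`. -/
theorem leafRes_of544 (hVT : LeafVT) (hT : LeafTable) (hV : LeafVal) (hS : LeafSheet)
    (hN : LeafNormMq544) : H189.LeafRes := by
  intro P E M q _ _ _ w hStd V₁' V₂' V₁ V₂ V₃ W' W hO
  have hq := hStd.q_prime
  exact partRes_of544 (R := A2.RE P E) w q (A2.Mod.αE E (M * q) q) (A2.Mod.βE E (M * q) q)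
    (j1 E M q) (jq E M q) (jqq E M q) (A2.Mod.xE E M q)
    V₁ V₂ V₃ V₁' V₂'
    (hVT P E M q w hStd V₁' V₂' V₁ V₂ V₃ W' W hO)
    (hT P E M q w hStd V₁' V₂' V₁ V₂ V₃ W' W hO)
    (hV P E M q w hStd V₁' V₂' V₁ V₂ V₃ W' W hO)
    (hS P E M q w hStd V₁' V₂' V₁ V₂ V₃ W' W hO)
    (H189.chart_α_x3E P E M q hq) (H189.chart_β_x3E P E M q hq)
    (H189.int_α_x3E P E M q hq) (H189.int_β_x3E P E M q hq)
    (hN P E M q w hStd V₁' V₂' V₁ V₂ V₃ W' W hO)

/-- **`Mod3.LeafChart`** from the valuation-level table and the normality at level `M q`. -/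
theorem leafChart_of544 (hVT : LeafVT) (hT : LeafTable) (hV : LeafVal) (hS : LeafSheet)
    (hN : LeafNormMq544) : LeafChart :=
  H189.leafChart_of_res (leafRes_of544 hVT hT hV hS hN)

end Fermat.Agent.S36.Mod3.H544

end
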